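import Fermat.Agent.S44.Const.Places.Main

/-!
# S43 / NC / Places : step (5) of `S44.Const` with TWO parameters and no cover

`A` a valuation ring of `ℚ̄` over the prime `q`, `q ∤ M`; the exponent `e` is arbitrary.  `(A₀, K, k₀, r)` a model over a small field, `Compat A r e₀`.
`f ∈ FF (M q)` is the base change of `f' ∈ K((t))`, `f' * γ` reduces to `φ' ∈ F_{k₀}(M)`.

* `nck_of_ncv2`, `cuspk_of_cuv2` : from valuation rings of `F_{k₀}(M)` to places of `resF M A`;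
* `nc_of_ncv2`, `cuspP_of_cuv2`, `nc_cuspP2` : (NCV) + (CUV)  ⟹  `CuspP M A e f ∧ Eis.NC M A e (f ^ T * XD_q ^ c)`.
-/

set_option autoImplicit false

open AlgebraicCurve ModularCurve

namespace Fermat.Agent.S43.NC

open Fermat.Agent.ES (Qb FF kA resA)
open Fermat.Agent.S37.Mod (resF)
open Fermat.Agent.SS (RedTo RedUp cst cstk)
open Fermat.Agent.SS.GM2 (RedK Xh Jh)
open Fermat.Agent.S44 (Cuspk CuspP)
open Fermat.Agent.S44.Eis (jt NCk ALLk HasRed NC)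
open Fermat.Agent.S44.XD (XD)
open Fermat.Agent.S44.Const (IsUnitIn)
open Fermat.Agent.S44.Const.Places
open Fermat.Agent.Crux.GM (castS)

noncomputable section

variable {M : ℕ} [NeZero M] {A : ValuationSubring Qb} {q e : ℕ} [NeZero q] [NeZero e]

section K

variable {k₀ : Type*} [Field k₀] (e₀ : k₀ →+* kA A)

/-- **(a), non-cuspidal places**, residue characteristic `q`, exponent `e`. -/
theorem nck_of_ncv2 (hq : q.Prime) (hA : A.LiesOverPrime q)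
    (xb : modularFunctionFieldFullC k₀ M) (hxb : (xb : LaurentSeries k₀) = castS k₀ (Xh M q))
    {ψ : LaurentSeries k₀} (hψ : ψ ∈ modularFunctionFieldFullC k₀ M) (hψ0 : ψ ≠ 0)
    (h : ∀ W : ValuationSubring (modularFunctionFieldFullC k₀ M), xb ∈ W →
      ∃ y u : modularFunctionFieldFullC k₀ M, u ≠ 0 ∧ u ∈ W ∧ u⁻¹ ∈ W ∧
        (u : LaurentSeries k₀) = (y : LaurentSeries k₀) ^ e * ψ) :
    NCk M A e (coeffMap e₀ ψ) := by
  have hm : coeffMap e₀ ψ ∈ resF M A :=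
    Fermat.Agent.S44.ResDeg.full_le_resF M A (Fermat.Agent.S28.coeffMap_mem_full e₀ M hψ)
  refine ⟨hm, fun h0 => hψ0 ((coeffMap e₀).injective (by rw [h0, map_zero])), fun Q hQ => ?_⟩
  exact dvd_ord_of_unit e₀ e Q hm (h _ ((xb_mem_comap_iff e₀ q hq hA xb hxb Q).2 hQ))

/-- **(a), cuspidal places**, residue characteristic `q`, exponent `e`. -/
theorem cuspk_of_cuv2 (hq : q.Prime) (hA : A.LiesOverPrime q)
    (xb : modularFunctionFieldFullC k₀ M) (hxb : (xb : LaurentSeries k₀) = castS k₀ (Xh M q))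
    {ψ : LaurentSeries k₀} (hψ : ψ ∈ modularFunctionFieldFullC k₀ M) (hψ0 : ψ ≠ 0)
    (h : ∀ W : ValuationSubring (modularFunctionFieldFullC k₀ M), xb ∉ W →
      ∃ y u : modularFunctionFieldFullC k₀ M, u ≠ 0 ∧ u ∈ W ∧ u⁻¹ ∈ W ∧
        (u : LaurentSeries k₀) = (y : LaurentSeries k₀) ^ e * ψ) :
    Cuspk M A e (coeffMap e₀ ψ) := by
  have hm : coeffMap e₀ ψ ∈ resF M A :=
    Fermat.Agent.S44.ResDeg.full_le_resF M A (Fermat.Agent.S28.coeffMap_mem_full e₀ M hψ)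
  refine ⟨hm, fun h0 => hψ0 ((coeffMap e₀).injective (by rw [h0, map_zero])), fun Q hQ => ?_⟩
  exact dvd_ord_of_unit e₀ e Q hm
    (h _ (fun hx => absurd ((xb_mem_comap_iff e₀ q hq hA xb hxb Q).1 hx) (not_le.2 hQ)))

end K

variable {A₀ K k₀ : Type*} [CommRing A₀] [Field K] [Algebra A₀ K] [Algebra K Qb] [Field k₀]
  {r : A₀ →+* k₀} {e₀ : k₀ →+* kA A}

omit [NeZero M] [NeZero q] [NeZero e] in
/-- the reduction of `f`. -/
theorem redUp_f (C : Compat A (K := K) r e₀) {f : LaurentSeries Qb} {f' : LaurentSeries K}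
    (hf' : coeffMap (algebraMap K Qb) f' = f) {γ : K} (hγ : γ ≠ 0) {φ' : LaurentSeries k₀}
    (hφ0 : φ' ≠ 0) (hred : RedK r (f' * HahnSeries.C γ) φ') :
    RedUp A f (coeffMap e₀ φ') ∧ coeffMap e₀ φ' ≠ 0 := by
  refine ⟨?_, fun h0 => hφ0 ((coeffMap e₀).injective (h0.trans (map_zero _).symm))⟩
  rw [← hf']
  exact C.redUp hγ hred

/-- **Step (5), cuspidal places** (two parameters, no cover). -/
theorem cuspP_of_cuv2 (hq : q.Prime) (hA : A.LiesOverPrime q)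
    (C : Compat A (K := K) r e₀) {f : LaurentSeries Qb} {f' : LaurentSeries K}
    (hf' : coeffMap (algebraMap K Qb) f' = f)
    {γ : K} (hγ : γ ≠ 0) (φ' xb : modularFunctionFieldFullC k₀ M) (hφ0 : φ' ≠ 0)
    (hxb : (xb : LaurentSeries k₀) = castS k₀ (Xh M q))
    (hred : RedK r (f' * HahnSeries.C γ) (φ' : LaurentSeries k₀))
    (cuv : ∀ V : ValuationSubring (modularFunctionFieldFullC k₀ M), xb ∉ V →
      ∃ y : modularFunctionFieldFullC k₀ M, y ≠ 0 ∧ IsUnitIn V (y ^ e * φ')) :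
    CuspP M A e f := by
  obtain ⟨h1, -⟩ := redUp_f C hf' hγ (fun h => hφ0 (Subtype.ext h)) hred
  refine ⟨_, h1, cuspk_of_cuv2 e₀ hq hA xb hxb φ'.2 (fun h => hφ0 (Subtype.ext h)) fun W hW => ?_⟩
  obtain ⟨y, hy, hu⟩ := cuv W hW
  exact ⟨y, y ^ e * φ', mul_ne_zero (pow_ne_zero e hy) hφ0, hu.1, hu.2, rfl⟩

/-- **Step (5), non-cuspidal places** (two parameters, no cover). -/
theorem nc_of_ncv2 (hq : q.Prime) (hA : A.LiesOverPrime q)
    (C : Compat A (K := K) r e₀) {f : LaurentSeries Qb} {f' : LaurentSeries K}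
    (hf' : coeffMap (algebraMap K Qb) f' = f)
    {γ : K} (hγ : γ ≠ 0) (φ' xb Xb : modularFunctionFieldFullC k₀ M) (hφ0 : φ' ≠ 0)
    (hxb : (xb : LaurentSeries k₀) = castS k₀ (Xh M q)) (hXb : (Xb : LaurentSeries k₀) = XD k₀ q)
    (hred : RedK r (f' * HahnSeries.C γ) (φ' : LaurentSeries k₀)) (T c : ℤ)
    (ncv : ∀ V : ValuationSubring (modularFunctionFieldFullC k₀ M), xb ∈ V →
      ∃ y : modularFunctionFieldFullC k₀ M, y ≠ 0 ∧ IsUnitIn V (y ^ e * (φ' ^ T * Xb ^ c))) :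
    NC M A e (f ^ T * XD Qb q ^ c) := by
  have hXb0 : Xb ≠ 0 := fun h => Fermat.Agent.S44.XD.XD_ne_zero (R := k₀) q (by rw [← hXb, h]; rfl)
  obtain ⟨h1, hφb0⟩ := redUp_f C hf' hγ (fun h => hφ0 (Subtype.ext h)) hred
  have h3 : NCk M A e (coeffMap e₀ ((φ' ^ T * Xb ^ c : modularFunctionFieldFullC k₀ M) :
      LaurentSeries k₀)) := by
    refine nck_of_ncv2 e₀ hq hA xb hxb (φ' ^ T * Xb ^ c).2
      (fun h => mul_ne_zero (zpow_ne_zero T hφ0) (zpow_ne_zero c hXb0) (Subtype.ext h))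
      fun W hW => ?_
    obtain ⟨y, hy, hu⟩ := ncv W hW
    exact ⟨y, y ^ e * (φ' ^ T * Xb ^ c), mul_ne_zero (pow_ne_zero e hy)
      (mul_ne_zero (zpow_ne_zero T hφ0) (zpow_ne_zero c hXb0)), hu.1, hu.2, rfl⟩
  have e1 : coeffMap e₀ ((φ' ^ T * Xb ^ c : modularFunctionFieldFullC k₀ M) : LaurentSeries k₀)
      = coeffMap e₀ (φ' : LaurentSeries k₀) ^ T * XD (kA A) q ^ c := by
    have e2 : ((φ' ^ T * Xb ^ c : modularFunctionFieldFullC k₀ M) : LaurentSeries k₀)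
        = (φ' : LaurentSeries k₀) ^ T * (Xb : LaurentSeries k₀) ^ c := by
      have := map_mul (modularFunctionFieldFullC k₀ M).val (φ' ^ T) (Xb ^ c)
      rw [map_zpow₀, map_zpow₀] at this
      exact this
    rw [e2, map_mul, map_zpow₀, map_zpow₀, hXb, Fermat.Agent.S44.XD.coeffMap_XD]
  rw [e1] at h3
  exact ⟨_, (Fermat.Agent.S44.Eis.RedUp.zpow h1 hφb0 T).mul
      (Fermat.Agent.S44.Eis.RedUp.zpow (Fermat.Agent.S44.XD.redUp_XD q A)
        (Fermat.Agent.S44.XD.XD_ne_zero q) c), h3⟩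

/-- **Step (5)** (two parameters, no cover). -/
theorem nc_cuspP2 (hq : q.Prime) (hA : A.LiesOverPrime q)
    (C : Compat A (K := K) r e₀) {f : LaurentSeries Qb} {f' : LaurentSeries K}
    (hf' : coeffMap (algebraMap K Qb) f' = f)
    {γ : K} (hγ : γ ≠ 0) (φ' xb Xb : modularFunctionFieldFullC k₀ M) (hφ0 : φ' ≠ 0)
    (hxb : (xb : LaurentSeries k₀) = castS k₀ (Xh M q)) (hXb : (Xb : LaurentSeries k₀) = XD k₀ q)
    (hred : RedK r (f' * HahnSeries.C γ) (φ' : LaurentSeries k₀)) (T c : ℤ)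
    (ncv : ∀ V : ValuationSubring (modularFunctionFieldFullC k₀ M), xb ∈ V →
      ∃ y : modularFunctionFieldFullC k₀ M, y ≠ 0 ∧ IsUnitIn V (y ^ e * (φ' ^ T * Xb ^ c)))
    (cuv : ∀ V : ValuationSubring (modularFunctionFieldFullC k₀ M), xb ∉ V →
      ∃ y : modularFunctionFieldFullC k₀ M, y ≠ 0 ∧ IsUnitIn V (y ^ e * φ')) :
    CuspP M A e f ∧ NC M A e (f ^ T * XD Qb q ^ c) :=
  ⟨cuspP_of_cuv2 hq hA C hf' hγ φ' xb hφ0 hxb hred cuv,
    nc_of_ncv2 hq hA C hf' hγ φ' xb Xb hφ0 hxb hXb hred T c ncv⟩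

end

end Fermat.Agent.S43.NC
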