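import Fermat.Agent.S43.NC.AbsX
import Fermat.Agent.S43.NC.Places
import Fermat.Agent.S43.Q.Inst
import Fermat.Agent.S43.QF.Coeff
import Fermat.Agent.S43.I.Cusp2
import Fermat.Agent.S43.I.InvDefs

/-!
# S43 / NC / Main : **CONST_q**  (`S43.I.ConstQ`)

Assembly:  `QF.exists_pkg_L0` (unramified number field `K₀`, `W₀ ∈ F_{K₀}(M q)`, `InvKq`)  +  `Q.exists_ctxQ` (`π = q`, `e = 1`, `T = 12`)  +
`NC.absXQ` (chart `X`, no cover)  +  `NC.nc_of_ncv2`  +  `I.cuspP2`.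
-/

set_option autoImplicit false
set_option linter.unusedSectionVars false
set_option linter.style.haveILetI false

open AlgebraicCurve ModularCurve

namespace Fermat.Agent.S43.NC

open Fermat.Agent.ES Fermat.Agent.SS Fermat.Agent.SS.GM2
open Fermat.Agent.Crux.G Fermat.Agent.SS.G2
open Fermat.Agent.S44.Bridge
open Fermat.Agent.S44.Cover (LL bc)
open Fermat.Agent.Crux.GM (castS)
open Fermat.Agent.Crux (A0)
open Fermat.Agent.S44.Const (IsUnitIn)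
open Fermat.Agent.S44.XD (XD)

set_option maxHeartbeats 1000000 in
/-- **CONST_q.** -/
theorem constQ (M q e : ℕ) [NeZero M] [NeZero q] (hq : q.Prime) (hqM : ¬ q ∣ M)
    (hadm : Fermat.Agent.Crux.Admissible q M) (he : 0 < e) (he12 : Nat.Coprime e 12) :
    Fermat.Agent.S43.I.ConstQ M q e := by
  intro A hA f hf
  haveI : NeZero e := ⟨he.ne'⟩
  haveI : Fact q.Prime := ⟨hq⟩
  obtain ⟨w, hw⟩ := exists_isAL M q hq hqM
  obtain ⟨K₀, iN, iD, iFin, wK, W₀, hirr, -, hwK, hwK', hW₀, hI0, -⟩ :=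
    Fermat.Agent.S43.QF.exists_pkg_L0 hq he hA w hw f hf
  obtain ⟨_, F, E, iF, iAF, iE, iE0, iAE, iEF, iT, iFD, Φ, w', X, C, hF⟩ :=
    Fermat.Agent.S43.Q.exists_ctxQ M q hq hqM hadm (IsLocalRing.residue (A0 K₀ A))
      IsLocalRing.residue_surjective (Fermat.Agent.Crux.residue_A0_natCast K₀ A hA)
      (q : A0 K₀ A) hirr wK hwK (Fermat.Agent.S43.Q.wK_XD hw wK hwK')
  obtain ⟨W, hW, -⟩ := hF W₀
  have hfL : (((f : (FF (M * q))ˣ) : FF (M * q)) : LL) ≠ 0 :=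
    fun h => (f : (FF (M * q))ˣ).ne_zero (Subtype.ext h)
  have hW0 : W ≠ 0 := by
    rintro rfl
    rw [map_zero] at hW
    rw [← hW, map_zero] at hW₀
    exact hfL hW₀.symm
  obtain ⟨xb, hxb⟩ : ∃ xb : modularFunctionFieldFullC (IsLocalRing.ResidueField (A0 K₀ A)) M,
      (xb : LaurentSeries (IsLocalRing.ResidueField (A0 K₀ A)))
        = castS (IsLocalRing.ResidueField (A0 K₀ A)) (Xh M q) :=
    ⟨⟨_, C.ql.mem _ _ _ C.redX (by rw [C.wX]; exact C.redX)⟩, rfl⟩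
  have h1 : ((q : ℕ) : A0 K₀ A) = (q : A0 K₀ A) ^ 1 * 1 := by rw [pow_one, mul_one]
  obtain ⟨Xb, hXb⟩ : ∃ Xb : modularFunctionFieldFullC (IsLocalRing.ResidueField (A0 K₀ A)) M,
      (Xb : LaurentSeries (IsLocalRing.ResidueField (A0 K₀ A)))
        = XD (IsLocalRing.ResidueField (A0 K₀ A)) q := by
    letI := algL (A := A0 K₀ A) F X
    obtain ⟨B, G, -⟩ := C.exists_good0
    obtain ⟨X₀, -, -, -, -, -, -, h⟩ := C.exists_XData one_pos (one_mul 1) h1 G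
    exact ⟨⟨XD _ q, by rw [← h]; exact G.r₁_mem_full X₀⟩, rfl⟩
  obtain ⟨a', c', φ, hφ0, hφ, hncv⟩ := absXQ C one_pos (one_mul 1) h1 he
    (by rw [mul_one]; exact he12) hW0 (by rw [hW]; exact hI0) xb Xb hxb hXb
  have hπ0 : algebraMap (A0 K₀ A) K₀ (q : A0 K₀ A) ≠ 0 := by
    rw [Ne, map_eq_zero_iff _ (IsFractionRing.injective (A0 K₀ A) K₀)]
    exact hirr.ne_zero
  refine ⟨-c', Fermat.Agent.S43.I.cuspP2 M q e hq hqM hadm he A hA f, ?_⟩
  rw [neg_neg]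
  refine nc_of_ncv2 hq hA (Fermat.Agent.S44.Const.Places.compat_A0 A K₀) (f' := Φ W)
    (by rw [hW]; exact hW₀) (zpow_ne_zero (-a') hπ0) φ xb Xb hφ0 hxb hXb
    (by rw [map_zpow₀]; exact hφ) 12 c' ?_
  intro V hV
  obtain ⟨y, hy, hu⟩ := hncv V hV
  refine ⟨y, hy, ?_⟩
  have e12 : φ ^ (12 : ℤ) = φ ^ (12 * 1) := by
    rw [mul_one]; exact zpow_natCast φ 12
  rw [e12]
  exact hu

end Fermat.Agent.S43.NC
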