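import Fermat.Agent.S44.Bridge.Place
import Fermat.Agent.S44.Bridge.Up
import Fermat.Agent.S44.Const.Red

/-!
# S43 / NC / Chart : the two abstract chart theorems of `S44/Const` WITHOUT the cover

`S` a noetherian domain (the chart ring), `F = Frac S`, `Φ : F → K((q))`, `ρL : S → L` the reduction on the first component
(`Q1 = ker ρL`), `emb : L → k((q))`, `RedData r π Φ (emb ∘ ρL) ϖ`.   The exponent `m` is ARBITRARY (prime to the thickness `T`); no relation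
with the residue characteristic.

* `chart0Q`   (chart `X`)   : `∃ a c φ ≠ 0`, `Φ u / π ^ a` reduces to `φ`, and for every valuation ring `V ⊇ ρL(S)` of `L`
                              `∃ y ≠ 0`, `y ^ m * (φ ^ T * ρL X₀ ^ c)` is a unit of `V`;
* `chartInfQ` (chart `1/X`) : the same with `y ^ m * φ`, for the `V` whose centre is a smooth point.
-/

set_option autoImplicit false
set_option linter.unusedSectionVars false

namespace Fermat.Agent.S43.NC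

open Fermat.Agent.S44.Loc Fermat.Agent.S44.Bridge Fermat.Agent.SS.GM2
open Fermat.Agent.S44.Const (IsUnitIn X_notMem_of_smooth)

variable {A K k : Type*} [CommRing A] [IsDomain A] [Field K] [Algebra A K] [IsFractionRing A K]
  [Field k] {r : A →+* k} {π : A}
  {S F L : Type*} [CommRing S] [IsDomain S] [IsNoetherianRing S] [Field F] [Field L]
  [Algebra S F] [IsFractionRing S F]
  {Φ : F →+* LaurentSeries K} {ϖ : S} {ρL : S →+* L} {emb : L →+* LaurentSeries k}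

/-- **chart `X`, no cover.** -/
theorem chart0Q (RD : RedData r π Φ (emb.comp ρL) ϖ) {Q1 Q2 : Ideal S}
    (hQ1 : RingHom.ker ρL = Q1) (hP1 : LocPrin Q1 ϖ) (hP2 : LocPrin Q2 ϖ) (hnorm : Normal F ϖ)
    (tri : ∀ n : Ideal S, n.IsMaximal → Q1 ≤ n → NodeAt n ϖ Q1 Q2 ∨ SmoothAt n ϖ Q1)
    {X₀ U ε : S} {T : ℕ} (hX : XData F ϖ Q1 Q2 X₀ T) {m : ℕ} (hm : 0 < m)
    (hmT : Nat.Coprime m T) (hXU : X₀ * U = ϖ ^ T * ε) (hε : IsUnit ε)
    {u : F} (hu : u ≠ 0) (hinv : InvK ϖ m u) :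
    ∃ (a c : ℤ) (φ : L), φ ≠ 0 ∧
      RedK r (Φ u * (HahnSeries.C (algebraMap A K π) : LaurentSeries K) ^ (-a)) (emb φ) ∧
      ∀ V : ValuationSubring L, (∀ s, ρL s ∈ V) →
        ∃ y : L, y ≠ 0 ∧ IsUnitIn V (y ^ m * (φ ^ T * ρL X₀ ^ c)) := by
  subst hQ1
  obtain ⟨a, hu1⟩ := exists_vEq hP1 hu
  obtain ⟨b, hu2⟩ := exists_vEq hP2 hu
  obtain ⟨φ, hφ0, hφ⟩ := vEq_iff_rd.1 hu1
  refine ⟨a, a - b, φ, hφ0, RD.redK_of_rd (hφ.comp emb), fun V hV => ?_⟩
  obtain ⟨n, hn, hle, hcent, -⟩ := exists_maximal_of_val V hV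
  rcases tri n hn hle with h | h
  · exact rc_val V hcent h (hnorm.at hn.ne_top) hm (hX.at hn.ne_top) hmT hφ hφ0 hu2
      (hinv.at hn.ne_top)
  · obtain ⟨η, hη, hU⟩ := smooth_val V hcent h (hnorm.at hn.ne_top) hm hφ hφ0 (hinv.at hn.ne_top)
    have hen : ε ∉ n := fun hm' => hn.ne_top (Ideal.eq_top_of_isUnit_mem _ hm' hε)
    have uX : IsUnitIn V (ρL X₀) := hcent X₀ (X_notMem_of_smooth h hX.notMem1 T U ε hen hXU)
    have hU' : IsUnitIn V (η ^ m * φ) := hU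
    refine ⟨η ^ T, pow_ne_zero _ hη, ?_⟩
    have e3 : (η ^ T) ^ m * (φ ^ T * ρL X₀ ^ (a - b)) = (η ^ m * φ) ^ T * ρL X₀ ^ (a - b) := by
      rw [mul_pow, ← pow_mul, ← pow_mul, mul_comm T m, mul_assoc]
    rw [e3]
    exact (hU'.pow T).mul (uX.zpow _)

/-- **chart `1/X`, no cover** (only smooth points). -/
theorem chartInfQ (RD : RedData r π Φ (emb.comp ρL) ϖ) {Q1 : Ideal S}
    (hQ1 : RingHom.ker ρL = Q1) (hP1 : LocPrin Q1 ϖ) (hnorm : Normal F ϖ)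
    {m : ℕ} (hm : 0 < m) {u : F} (hu : u ≠ 0) (hinv : InvK ϖ m u) :
    ∃ (a : ℤ) (φ : L), φ ≠ 0 ∧
      RedK r (Φ u * (HahnSeries.C (algebraMap A K π) : LaurentSeries K) ^ (-a)) (emb φ) ∧
      ∀ V : ValuationSubring L, (∀ s, ρL s ∈ V) →
        (∀ n : Ideal S, n.IsMaximal → (∀ s, ρL s ∈ V.nonunits → s ∈ n) → SmoothAt n ϖ Q1) →
        ∃ y : L, y ≠ 0 ∧ IsUnitIn V (y ^ m * φ) := by
  subst hQ1
  obtain ⟨a, hu1⟩ := exists_vEq hP1 hu
  obtain ⟨φ, hφ0, hφ⟩ := vEq_iff_rd.1 hu1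
  refine ⟨a, φ, hφ0, RD.redK_of_rd (hφ.comp emb), fun V hV hsm => ?_⟩
  obtain ⟨n, hn, hle, hcent, hcen'⟩ := exists_maximal_of_val V hV
  have hc : ∀ s, ρL s ∈ V.nonunits → s ∈ n := by
    intro s hs
    by_cases h0 : ρL s = 0
    · exact hle (RingHom.mem_ker.2 h0)
    · refine hcen' s fun hi => ?_
      rw [ValuationSubring.mem_nonunits_iff] at hs
      have h1 := (V.valuation_le_one_iff _).2 hi
      have h2 : V.valuation (ρL s) * V.valuation (ρL s)⁻¹ = 1 := by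
        rw [← map_mul, mul_inv_cancel₀ h0, map_one]
      have h3 : V.valuation (ρL s) * V.valuation (ρL s)⁻¹ < 1 :=
        lt_of_le_of_lt (mul_le_of_le_one_right' h1) hs
      exact absurd h2 h3.ne
  have h := hsm n hn hc
  obtain ⟨η, hη, hU⟩ := smooth_val V hcent h (hnorm.at hn.ne_top) hm hφ hφ0 (hinv.at hn.ne_top)
  exact ⟨η, hη, hU⟩

end Fermat.Agent.S43.NC
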