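import Fermat.Agent.S43.Q.Ctx
import Fermat.Agent.S43.NC.Chart

/-!
# S43 / NC / AbsX : `NC.chart0Q` in the setting `Q.CtxQ` (layer 3, chart `X`, no cover)

`C : CtxQ M ℓ r π Φ w X`, `ℓ = π ^ e * unit`, `W ∈ Fˣ` with `InvKq` (exponent `m`, chart `X`), `gcd (m, 12 e) = 1`.  Then `Φ W / π ^ a'` reduces to
`φ ∈ F_k(M)ˣ` and for every valuation ring `V ∋ xb` of `F_k(M)` there is `y ≠ 0` with `y ^ m * (φ ^ (12 e) * XD ^ c')` a unit of `V`.
This is the hypothesis `ncv` of `NC.nc_of_ncv2` (= `I.CQ.nc_of_ncv2`).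
-/

set_option autoImplicit false
set_option linter.unusedSectionVars false
set_option linter.style.haveILetI false

open Polynomial ModularCurve

namespace Fermat.Agent.S43.NC

open Fermat.Agent.Crux.G Fermat.Agent.SS.G2 Fermat.Agent.S44.Loc Fermat.Agent.SS.GM2
open Fermat.Agent.S44.Bridge Fermat.Agent.S43.Q
open Fermat.Agent.S28 (V J evAt)
open Fermat.Agent.Crux.GM (castS)
open Fermat.Agent.S44.Const (IsUnitIn)
open Fermat.Agent.S44

noncomputable section

variable {M ℓ : ℕ} [NeZero M] [NeZero ℓ]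
variable {A K k : Type} [CommRing A] [IsDomain A] [IsDiscreteValuationRing A] [Field K]
  [CharZero K] [Algebra A K] [IsFractionRing A K] [Field k] [Finite k]
  {r : A →+* k} {π : A}
variable {F : Type} [Field F] [Algebra A F] {Φ : F →+* LaurentSeries K} {w : F →+* F}
variable {E : Type} [Field E] [CharZero E] [Algebra A E] [Algebra E F] [IsScalarTower A E F]
  [FiniteDimensional E F]
variable {X : E}

/-- **layer 3, chart `X`, no cover.** -/
theorem absXQ (C : CtxQ M ℓ r π Φ w X) {e : ℕ} (he : 0 < e) {u u' : A} (hu : u * u' = 1)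
    (hℓe : (ℓ : A) = π ^ e * u) {m : ℕ} (hm : 0 < m) (hmT : Nat.Coprime m (12 * e))
    {W : F} (hW : W ≠ 0) (hinv : InvKq K (M * ℓ) m (castS K (Xh M ℓ)) (Φ W))
    (xb Xb : modularFunctionFieldFullC k M)
    (hxb : (xb : LaurentSeries k) = castS k (Xh M ℓ))
    (hXb : (Xb : LaurentSeries k) = XD.XD k ℓ) :
    ∃ (a' c' : ℤ) (φ : modularFunctionFieldFullC k M), φ ≠ 0 ∧
      RedK r (Φ W * (HahnSeries.C (algebraMap A K π) : LaurentSeries K) ^ (-a'))
        (φ : LaurentSeries k) ∧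
      ∀ V : ValuationSubring (modularFunctionFieldFullC k M), xb ∈ V →
        ∃ y : modularFunctionFieldFullC k M, y ≠ 0 ∧
          IsUnitIn V (y ^ m * (φ ^ (12 * e) * Xb ^ c')) := by
  classical
  letI := algL (A := A) F X
  obtain ⟨i1, i2, i3⟩ := chart_inst (F := F) C.hXt C.hgen
  haveI := i1
  haveI := i2
  haveI := i3
  obtain ⟨B, G, -⟩ := C.exists_good0
  let emb : modularFunctionFieldFullC k M →+* LaurentSeries k :=
    algebraMap (modularFunctionFieldFullC k M) (LaurentSeries k)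
  have hemb : emb.comp G.rL = r₁ B := RingHom.ext fun _ => rfl
  have RD : RedData r π Φ (emb.comp G.rL) (pi π F) := by
    rw [hemb]; exact G.redData₁
  obtain ⟨X₀, U, ε, hX, hXU, hε, -, hX₀⟩ := C.exists_XData he hu hℓe G
  have hinv' : Fermat.Agent.S44.Loc.InvK (pi π F) m W := by
    refine invK_iff.2 ?_
    have h1 := C.S.invKx_of_invKq X m W (by rw [C.hX]; exact hinv)
    exact h1
  obtain ⟨a', c', φ, hφ0, hφ, hV⟩ := chart0Q (emb := emb) (ρL := G.rL) RD G.ker_rL
    (locPrin₁_x C.hXt C.hgen G) (locPrin₂_x C.hXt C.hgen G) normal (tri_x C.hXt C.hgen G) hX hm hmT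
    hXU hε hW hinv'
  refine ⟨a', c', φ, hφ0, hφ, fun V hxV => ?_⟩
  have hx : G.rL (algebraMap A[X] (SM A F) Polynomial.X) = xb :=
    Subtype.ext (by rw [G.coe_rL_X, hxb])
  have hXr : G.rL X₀ = Xb := Subtype.ext (by rw [G.coe_rL, hX₀, hXb])
  rw [← hXr]
  exact hV V (rL_mem_val' G V (by rw [hx]; exact hxV))

end

end Fermat.Agent.S43.NC
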